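import Mathlib

/-!
# Normal integral bases
-/

set_option autoImplicit false

noncomputable section

namespace Fermat.Agent.Cor.HS

open NumberField

/-- `K` has a **normal integral basis**: the conjugates of an integer `x` of `K` form a basis of
the ring of integers of `K` over `ℤ`. -/
def HasNormalIntegralBasis (K : Type*) [Field K] [NumberField K] : Prop :=
  ∃ (x : 𝓞 K) (b : Module.Basis Gal(K/ℚ) ℤ (𝓞 K)), ∀ σ : Gal(K/ℚ), (b σ : K) = σ x

section Span

variable {K : Type*} [Field K] [NumberField K] [IsGalois ℚ K]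

/-- If the conjugates of an integer span the ring of integers, they form a basis. -/
theorem hasNormalIntegralBasis_of_span (t : 𝓞 K)
    (h : ∀ y : 𝓞 K, ∃ c : Gal(K/ℚ) → ℤ, (y : K) = ∑ σ, c σ • σ (t : K)) :
    HasNormalIntegralBasis K := by
  classical
  set v : Gal(K/ℚ) → K := fun σ => σ (t : K) with hv
  have hvi : ∀ σ, IsIntegral ℤ (v σ) := fun σ => (t.isIntegral_coe).map σ
  have h1 : ⊤ ≤ Submodule.span ℚ (Set.range v) := by
    rw [← (integralBasis K).span_eq, Submodule.span_le]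
    rintro _ ⟨i, rfl⟩
    rw [integralBasis_apply]
    obtain ⟨c, hc⟩ := h (RingOfIntegers.basis K i)
    rw [SetLike.mem_coe]
    change ((RingOfIntegers.basis K i : 𝓞 K) : K) ∈ _
    rw [hc]
    refine Submodule.sum_mem _ fun σ _ => ?_
    rw [← Int.cast_smul_eq_zsmul ℚ]
    exact Submodule.smul_mem _ _ (Submodule.subset_span ⟨σ, rfl⟩)
  have h2 : LinearIndependent ℚ v := by
    refine linearIndependent_of_top_le_span_of_card_eq_finrank h1 ?_
    rw [← Nat.card_eq_fintype_card, IsGalois.card_aut_eq_finrank]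
  have h3 : LinearIndependent ℤ v := (LinearIndependent.iff_fractionRing ℤ ℚ).mpr h2
  let w : Gal(K/ℚ) → 𝓞 K := fun σ => ⟨v σ, hvi σ⟩
  have h4 : LinearIndependent ℤ w :=
    LinearIndependent.of_comp ((Algebra.linearMap (𝓞 K) K).restrictScalars ℤ) h3
  have h5 : ⊤ ≤ Submodule.span ℤ (Set.range w) := by
    intro y _
    obtain ⟨c, hc⟩ := h y
    rw [Submodule.mem_span_range_iff_exists_fun]
    refine ⟨c, RingOfIntegers.ext ?_⟩
    rw [hc]
    have h6 := map_sum ((Algebra.linearMap (𝓞 K) K).restrictScalars ℤ) (fun i => c i • w i)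
      Finset.univ
    refine h6.trans (Finset.sum_congr rfl fun σ _ => ?_)
    rw [map_smul]
    rfl
  exact ⟨t, Module.Basis.mk h4 h5, fun σ => by rw [Module.Basis.mk_apply]; rfl⟩

omit [IsGalois ℚ K] in
/-- A normal integral basis gives coordinates. -/
theorem HasNormalIntegralBasis.exists_coord (h : HasNormalIntegralBasis K) :
    ∃ x : 𝓞 K, (∀ y : 𝓞 K, ∃ c : Gal(K/ℚ) → ℤ, (y : K) = ∑ σ, c σ • σ (x : K)) ∧
      ∀ c d : Gal(K/ℚ) → ℤ, ∑ σ, c σ • σ (x : K) = ∑ σ, d σ • σ (x : K) → c = d := by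
  obtain ⟨x, b, hb⟩ := h
  have h1 : ∀ c : Gal(K/ℚ) → ℤ, ((∑ σ, c σ • b σ : 𝓞 K) : K) = ∑ σ, c σ • σ (x : K) := by
    intro c
    have h6 := map_sum ((Algebra.linearMap (𝓞 K) K).restrictScalars ℤ) (fun i => c i • b i)
      Finset.univ
    refine h6.trans (Finset.sum_congr rfl fun σ _ => ?_)
    rw [map_smul, ← hb]
    rfl
  refine ⟨x, fun y => ⟨fun σ => b.repr y σ, ?_⟩, fun c d hcd => ?_⟩
  · rw [← h1, b.sum_repr]
  · rw [← h1, ← h1] at hcd
    have h2 := RingOfIntegers.ext hcd
    funext σ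
    rw [← b.repr_sum_self c, h2, b.repr_sum_self d]

/-- **A field with a normal integral basis has an integer of trace `1`.** -/
theorem HasNormalIntegralBasis.exists_trace_eq_one (h : HasNormalIntegralBasis K) :
    ∃ x : 𝓞 K, Algebra.trace ℚ K (x : K) = 1 := by
  obtain ⟨x, h1, h2⟩ := h.exists_coord
  obtain ⟨c, hc⟩ := h1 1
  have hc' : (1 : K) = ∑ σ, c σ • σ (x : K) := by
    rw [← hc]
    exact (map_one (algebraMap (𝓞 K) K)).symm
  have h3 : ∀ τ : Gal(K/ℚ), c τ = c 1 := by
    intro τ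
    have h4 : ∑ σ, c (τ * σ) • σ (x : K) = ∑ σ, c σ • σ (x : K) := by
      rw [← hc', ← map_one τ⁻¹, hc', map_sum]
      refine Fintype.sum_equiv (Equiv.mulLeft τ) _ _ fun σ => ?_
      simp only [Equiv.coe_mulLeft]
      rw [map_zsmul]
      congr 1
      rw [AlgEquiv.mul_apply]
      exact (AlgEquiv.symm_apply_apply τ _).symm
    have h6 := congrFun (h2 _ _ h4) 1
    simpa using h6
  refine ⟨c 1 • x, ?_⟩
  have h7 : algebraMap ℚ K (Algebra.trace ℚ K ((c 1 • x : 𝓞 K) : K)) = 1 := by
    rw [trace_eq_sum_automorphisms, hc']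
    refine Finset.sum_congr rfl fun σ _ => ?_
    have h9 : ((c 1 • x : 𝓞 K) : K) = c 1 • (x : K) :=
      map_smul ((Algebra.linearMap (𝓞 K) K).restrictScalars ℤ) (c 1) x
    rw [h3 σ, h9, map_zsmul]
  rw [← map_one (algebraMap ℚ K)] at h7
  exact (algebraMap ℚ K).injective h7

end Span

section Sub

variable {K M : Type*} [Field K] [NumberField K] [IsGalois ℚ K] [Field M] [NumberField M]
  [IsGalois ℚ M] [Algebra K M]

/-- The sum over the automorphisms with a given restriction. -/
theorem sum_fiber (x : M) (τ : Gal(K/ℚ)) [DecidableEq Gal(K/ℚ)] :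
    ∑ g : Gal(M/ℚ) with AlgEquiv.restrictNormalHom K g = τ, g x =
      algebraMap K M (τ (Algebra.trace K M x)) := by
  classical
  have hKM : IsGalois K M := IsGalois.tower_top_of_isGalois ℚ K M
  obtain ⟨g₀, hg₀⟩ := AlgEquiv.restrictNormalHom_surjective (F := ℚ) (K₁ := K) M τ
  have h1 : algebraMap K M (τ (Algebra.trace K M x)) = ∑ u : Gal(M/K), g₀ (u x) := by
    rw [← map_sum, ← trace_eq_sum_automorphisms, ← hg₀]
    exact AlgEquiv.restrictNormal_commutes g₀ K _
  rw [h1]
  symm
  refine Finset.sum_bij (fun u _ => g₀ * (u.restrictScalars ℚ : Gal(M/ℚ))) ?_ ?_ ?_ ?_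
  · intro u _
    rw [Finset.mem_filter]
    refine ⟨Finset.mem_univ _, ?_⟩
    rw [map_mul, hg₀]
    have h2 : AlgEquiv.restrictNormalHom K (u.restrictScalars ℚ : Gal(M/ℚ)) = 1 := by
      ext y
      apply (algebraMap K M).injective
      rw [AlgEquiv.one_apply]
      exact (AlgEquiv.restrictNormal_commutes _ K y).trans (u.commutes y)
    rw [h2, mul_one]
  · intro u _ u' _ huu
    exact AlgEquiv.restrictScalars_injective ℚ (mul_left_cancel huu)
  · intro g hg
    rw [Finset.mem_filter] at hg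
    have h2 : ∀ y : K, (g₀⁻¹ * g) (algebraMap K M y) = algebraMap K M y := by
      intro y
      have h3 : AlgEquiv.restrictNormalHom K (g₀⁻¹ * g) = 1 := by
        rw [map_mul, map_inv, hg.2, hg₀, inv_mul_cancel]
      have h4 := AlgEquiv.restrictNormal_commutes (g₀⁻¹ * g) K y
      have h5 : (g₀⁻¹ * g).restrictNormal K = 1 := h3
      rw [h5, AlgEquiv.one_apply] at h4
      exact h4.symm
    refine ⟨AlgEquiv.ofRingEquiv (f := (g₀⁻¹ * g).toRingEquiv) h2, Finset.mem_univ _, ?_⟩
    ext z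
    change g₀ ((g₀⁻¹ * g) z) = g z
    rw [← AlgEquiv.mul_apply, mul_inv_cancel_left]
  · intro u _
    rfl

/-- **A Galois subfield of a field with a normal integral basis has a normal integral basis.** -/
theorem HasNormalIntegralBasis.of_algebra (h : HasNormalIntegralBasis M) :
    HasNormalIntegralBasis K := by
  classical
  obtain ⟨x, h1, h2⟩ := h.exists_coord
  have ht : IsIntegral ℤ (Algebra.trace K M (x : M)) := Algebra.isIntegral_trace x.isIntegral_coe
  refine hasNormalIntegralBasis_of_span (⟨_, ht⟩ : 𝓞 K) fun y => ?_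
  have hy : IsIntegral ℤ (algebraMap K M y) := y.isIntegral_coe.algebraMap
  obtain ⟨c, hc⟩ := h1 ⟨_, hy⟩
  have hc' : algebraMap K M y = ∑ g, c g • g (x : M) := hc
  -- the coordinates are constant on the fibers
  have h3 : ∀ g g' : Gal(M/ℚ), AlgEquiv.restrictNormalHom K g = AlgEquiv.restrictNormalHom K g' →
      c g = c g' := by
    intro g g' hgg
    set u := g' * g⁻¹ with hu
    have hu1 : AlgEquiv.restrictNormalHom K u = 1 := by
      rw [hu, map_mul, map_inv, hgg, mul_inv_cancel]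
    have hu2 : u⁻¹ (algebraMap K M y) = algebraMap K M y := by
      have h4 := AlgEquiv.restrictNormal_commutes u⁻¹ K (y : K)
      have h5 : u⁻¹.restrictNormal K = 1 := by
        change AlgEquiv.restrictNormalHom K u⁻¹ = 1
        rw [map_inv, hu1, inv_one]
      rw [h5, AlgEquiv.one_apply] at h4
      exact h4.symm
    have h4 : ∑ σ, c (u * σ) • σ (x : M) = ∑ σ, c σ • σ (x : M) := by
      rw [← hc', ← hu2, hc', map_sum]
      refine Fintype.sum_equiv (Equiv.mulLeft u) _ _ fun σ => ?_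
      simp only [Equiv.coe_mulLeft]
      rw [map_zsmul]
      congr 1
      rw [AlgEquiv.mul_apply]
      exact (AlgEquiv.symm_apply_apply u _).symm
    have h6 := congrFun (h2 _ _ h4) g
    rw [← h6, hu, inv_mul_cancel_right]
  choose l hl using AlgEquiv.restrictNormalHom_surjective (F := ℚ) (K₁ := K) M
  refine ⟨fun τ => c (l τ), ?_⟩
  apply (algebraMap K M).injective
  rw [hc', map_sum, ← Finset.sum_fiberwise (s := Finset.univ)
    (g := fun g : Gal(M/ℚ) => AlgEquiv.restrictNormalHom K g)]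
  refine Finset.sum_congr rfl fun τ _ => ?_
  have h4 : ∑ g : Gal(M/ℚ) with AlgEquiv.restrictNormalHom K g = τ, c g • g (x : M) =
      ∑ g : Gal(M/ℚ) with AlgEquiv.restrictNormalHom K g = τ, c (l τ) • g (x : M) := by
    refine Finset.sum_congr rfl fun g hg => ?_
    rw [Finset.mem_filter] at hg
    rw [h3 g (l τ) (hg.2.trans (hl τ).symm)]
  have h5 := sum_fiber (K := K) (x : M) τ
  rw [h4, ← Finset.smul_sum, h5]
  exact (map_zsmul (algebraMap K M) _ _).symm

end Sub

end Fermat.Agent.Cor.HS
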