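import Fermat.Agent.Corollaries.HS.Main

/-!
# The conductor of an abelian field
-/

set_option autoImplicit false

noncomputable section

namespace Fermat.Agent.Cor.HS

open NumberField Ideal IsCyclotomicExtension IsCyclotomicExtension.Rat Fermat.Agent.Cor.Abel
open DirichletCharacter

theorem isCyclotomicExtension_field (n : ℕ) [NeZero n] :
    IsCyclotomicExtension {n} ℚ (CyclotomicField n ℚ) := by
  have : NeZero ((n : ℕ) : ℚ) := ⟨by exact_mod_cast NeZero.ne n⟩
  exact CyclotomicField.isCyclotomicExtension n ℚ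

open IntermediateField in
/-- `ℚ(ζ_a) ⊆ ℚ(ζ_b)` for `a ∣ b`. -/
theorem nonempty_algHom_of_dvd {a b : ℕ} [NeZero b] (h : a ∣ b) (A : Type*) [Field A]
    [NumberField A] [IsCyclotomicExtension {a} ℚ A] (M : Type*) [Field M]
    [NumberField M] [IsCyclotomicExtension {b} ℚ M] : Nonempty (A →ₐ[ℚ] M) := by
  obtain ⟨c, hc⟩ := h
  have : NeZero a := ⟨fun h => NeZero.ne b (by rw [hc, h, zero_mul])⟩
  have hζ := zeta_spec b ℚ M
  have hζp : IsPrimitiveRoot (zeta b ℚ M ^ c) a := hζ.pow (NeZero.pos b) (by rw [hc, mul_comm])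
  have hE : IsCyclotomicExtension {a} ℚ ℚ⟮zeta b ℚ M ^ c⟯ :=
    hζp.intermediateField_adjoin_isCyclotomicExtension ℚ
  exact ⟨(val ℚ⟮zeta b ℚ M ^ c⟯).comp
    (IsCyclotomicExtension.algEquiv {a} ℚ A ℚ⟮zeta b ℚ M ^ c⟯).toAlgHom⟩

section Main

variable (K : Type*) [Field K] [NumberField K] [IsAbelianGalois ℚ K]

/-- The conductors of the characters of `K ⊆ ℚ(ζ_m)` divide `m`. -/
theorem conductor_dvd_of_algHom {m : ℕ} [NeZero m] (ψ : K →ₐ[ℚ] CyclotomicField m ℚ)
    {χ : DirichletCharacter ℂ (level K)} (hχ : χ ∈ dirChars K) : χ.conductor ∣ m := by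
  have hm := isCyclotomicExtension_field m
  have hnc := isCyclotomicExtension_level K
  have : NeZero (level K * m) := ⟨mul_ne_zero (NeZero.ne (level K)) (NeZero.ne m)⟩
  have hN := isCyclotomicExtension_field (level K * m)
  set L := CyclotomicField (level K * m) ℚ with hL
  obtain ⟨i⟩ := nonempty_algHom_of_dvd (dvd_mul_right (level K) m) (CyclotomicField (level K) ℚ) L
  obtain ⟨j⟩ := nonempty_algHom_of_dvd (dvd_mul_left m (level K)) (CyclotomicField m ℚ) L
  -- the two embeddings of `K` differ by an automorphism of `K`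
  have h1 : ∃ τ : K ≃ₐ[ℚ] K, ∀ x : K, j (ψ (τ x)) = i (emb K x) := by
    let _ : Algebra K L := (j.comp ψ).toRingHom.toAlgebra
    have h2 := (Normal.algHomEquivAut ℚ L K).symm_apply_apply (i.comp (emb K))
    refine ⟨Normal.algHomEquivAut ℚ L K (i.comp (emb K)), fun x => ?_⟩
    exact congrArg (fun f : K →ₐ[ℚ] L => f x) h2
  obtain ⟨τ, hτ⟩ := h1
  have hfac : (changeLevel (dvd_mul_right (level K) m) χ).FactorsThrough m := by
    rw [factorsThrough_iff_ker_unitsMap (dvd_mul_left m (level K))]
    intro u hu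
    obtain ⟨σ, rfl⟩ := (galEquivZMod (level K * m) L).surjective u
    rw [MonoidHom.mem_ker] at hu ⊢
    -- `σ` is trivial on `ℚ(ζ_m)`, hence on `K`
    have h3 : ∀ x : K, σ (i (emb K x)) = i (emb K x) := by
      intro x
      let _ : Algebra (CyclotomicField m ℚ) L := j.toRingHom.toAlgebra
      have : IsGalois ℚ (CyclotomicField m ℚ) := IsCyclotomicExtension.isGalois {m} ℚ _
      have h4 := galEquivZMod_restrictNormal_apply (level K * m) L (CyclotomicField m ℚ)
        (dvd_mul_left m (level K)) σ
      rw [hu, map_eq_one_iff _ (galEquivZMod m (CyclotomicField m ℚ)).injective] at h4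
      have h5 := AlgEquiv.restrictNormal_commutes σ (CyclotomicField m ℚ) (ψ (τ x))
      rw [h4, AlgEquiv.one_apply] at h5
      rw [← hτ x]
      exact h5.symm
    -- the restriction of `σ` to `ℚ(ζ_n)` fixes the image of `K`
    let _ : Algebra (CyclotomicField (level K) ℚ) L := i.toRingHom.toAlgebra
    have hG : IsGalois ℚ (CyclotomicField (level K) ℚ) := IsCyclotomicExtension.isGalois {level K} ℚ _
    have h6 := galEquivZMod_restrictNormal_apply (level K * m) L (CyclotomicField (level K) ℚ)
      (dvd_mul_right (level K) m) σ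
    have h7 : σ.restrictNormal (CyclotomicField (level K) ℚ) ∈ (img K).fixingSubgroup := by
      rw [IntermediateField.mem_fixingSubgroup_iff]
      rintro _ ⟨x, rfl⟩
      apply (algebraMap (CyclotomicField (level K) ℚ) L).injective
      rw [AlgEquiv.restrictNormal_commutes]
      exact h3 x
    have h8 := (mem_chars (n := level K) (img K)).mp hχ _ h7
    rw [h6] at h8
    rw [changeLevel_toUnitHom, MonoidHom.comp_apply, Units.ext_iff, MulChar.coe_toUnitHom,
      Units.val_one]
    exact h8
  have h9 := conductor_dvd_of_mem_conductorSet _ ((mem_conductorSet_iff _).mpr hfac)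
  rwa [conductor_changeLevel] at h9

open IntermediateField in
/-- If the conductors of the characters of `K` divide `m`, then `K ⊆ ℚ(ζ_m)`. -/
theorem nonempty_algHom_of_conductor_dvd {m : ℕ} [NeZero m]
    (h : ∀ χ ∈ dirChars K, χ.conductor ∣ m) : Nonempty (K →ₐ[ℚ] CyclotomicField m ℚ) := by
  have hm := isCyclotomicExtension_field m
  set n := level K with hn
  set g := Nat.gcd n m with hg
  have hgn : g ∣ n := Nat.gcd_dvd_left n m
  have hgm : g ∣ m := Nat.gcd_dvd_right n m
  have : NeZero g := ⟨(Nat.gcd_pos_of_pos_left m (NeZero.pos n)).ne'⟩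
  have hgc := isCyclotomicExtension_field g
  have hnc := isCyclotomicExtension_level K
  have hab : IsAbelianGalois ℚ (CyclotomicField n ℚ) :=
    IsCyclotomicExtension.isAbelianGalois {n} ℚ _
  obtain ⟨c, hc⟩ := hgn
  have hζ := zeta_spec n ℚ (CyclotomicField n ℚ)
  have hζp : IsPrimitiveRoot (zeta n ℚ (CyclotomicField n ℚ) ^ c) g :=
    hζ.pow (NeZero.pos n) (by rw [hc, mul_comm])
  set E := ℚ⟮zeta n ℚ (CyclotomicField n ℚ) ^ c⟯ with hEdef
  have hE : IsCyclotomicExtension {g} ℚ E := hζp.intermediateField_adjoin_isCyclotomicExtension ℚ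
  have hEg : IsGalois ℚ E := IsCyclotomicExtension.isGalois {g} ℚ _
  have h1 : img K ≤ E := by
    rw [← (intermediateFieldEquivSubgroupChar n (CyclotomicField n ℚ) ℂ).le_iff_le]
    intro χ hχ
    rw [mem_intermediateFieldEquivSubgroupChar_iff] at hχ
    rw [mem_intermediateFieldEquivSubgroupChar_iff_conductor_dvd n (CyclotomicField n ℚ) ℂ E
      (Nat.gcd_dvd_left n m)]
    have h2 : χ ∈ dirChars K := (mem_chars (n := n) (img K)).mpr hχ
    exact Nat.dvd_gcd χ.conductor_dvd_level (h χ h2)
  obtain ⟨j⟩ := nonempty_algHom_of_dvd hgm E (CyclotomicField m ℚ)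
  exact ⟨j.comp ((inclusion h1).comp (emb K).rangeRestrict)⟩

/-- **An abelian field `K` is contained in `ℚ(ζ_m)` if and only if the conductors of the
characters of `K` divide `m`.** -/
theorem nonempty_algHom_iff {m : ℕ} (hm : 0 < m) :
    Nonempty (K →ₐ[ℚ] CyclotomicField m ℚ) ↔ ∀ χ ∈ dirChars K, χ.conductor ∣ m := by
  have : NeZero m := ⟨hm.ne'⟩
  exact ⟨fun ⟨ψ⟩ _ hχ => conductor_dvd_of_algHom K ψ hχ, nonempty_algHom_of_conductor_dvd K⟩

/-- **The conductor of `K` is the least common multiple of the conductors of its characters.** -/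
theorem conductor_eq_lcm : conductor K = (dirChars K).lcm DirichletCharacter.conductor := by
  have h0 : (dirChars K).lcm DirichletCharacter.conductor ≠ 0 := by
    rw [Ne, Finset.lcm_eq_zero_iff]
    rintro ⟨χ, -, hχ⟩
    exact χ.conductor_ne_zero hχ
  refine le_antisymm ?_ ?_
  · exact conductor_le K (Nat.pos_of_ne_zero h0) ((nonempty_algHom_iff K (Nat.pos_of_ne_zero h0)).mpr
      fun χ hχ => Finset.dvd_lcm hχ)
  · refine Nat.le_of_dvd (conductor_spec K).1 (Finset.lcm_dvd fun χ hχ => ?_)
    exact (nonempty_algHom_iff K (conductor_spec K).1).mp (conductor_spec K).2 χ hχ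

/-- **An abelian field `K` is contained in `ℚ(ζ_m)` if and only if its conductor divides `m`.** -/
theorem nonempty_algHom_iff_conductor_dvd {m : ℕ} (hm : 0 < m) :
    Nonempty (K →ₐ[ℚ] CyclotomicField m ℚ) ↔ conductor K ∣ m := by
  rw [nonempty_algHom_iff K hm, conductor_eq_lcm, Finset.lcm_dvd_iff]

/-- **A prime is ramified in `K` if and only if it divides the conductor of `K`.** -/
theorem dvd_conductor_iff {p : ℕ} (hp : p.Prime) : p ∣ conductor K ↔ (p : ℤ) ∣ discr K := by
  rw [dvd_discr_iff K hp, conductor_eq_lcm]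
  constructor
  · intro h
    by_contra hcon
    push Not at hcon
    have h1 : (dirChars K).lcm DirichletCharacter.conductor ∣
        ∏ χ ∈ dirChars K, χ.conductor :=
      Finset.lcm_dvd fun χ hχ => Finset.dvd_prod_of_mem _ hχ
    obtain ⟨χ, hχ, hd⟩ := (Prime.dvd_finsetProd_iff hp.prime _).mp (h.trans h1)
    exact hcon χ hχ hd
  · rintro ⟨χ, hχ, hd⟩
    exact hd.trans (Finset.dvd_lcm hχ)

/-- The characters of an abelian field with squarefree conductor have squarefree conductors, and
conversely. -/
theorem squarefree_conductor_iff :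
    Squarefree (conductor K) ↔ ∀ χ ∈ dirChars K, Squarefree χ.conductor := by
  constructor
  · intro h χ hχ
    refine h.squarefree_of_dvd ?_
    rw [conductor_eq_lcm]
    exact Finset.dvd_lcm hχ
  · intro h
    have h1 : (dirChars K).lcm DirichletCharacter.conductor ∣
        ∏ p ∈ (conductor K).primeFactors, p := by
      refine Finset.lcm_dvd fun χ hχ => ?_
      rw [← Nat.prod_primeFactors_of_squarefree (h χ hχ)]
      refine Finset.prod_dvd_prod_of_subset _ _ _ (Nat.primeFactors_mono ?_ (NeZero.ne _))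
      rw [conductor_eq_lcm]
      exact Finset.dvd_lcm hχ
    rw [← conductor_eq_lcm] at h1
    refine Squarefree.squarefree_of_dvd h1 ?_
    refine Finset.squarefree_prod_of_pairwise_isCoprime (fun _ hp _ hq hpq => ?_)
      fun _ hp => (Nat.prime_of_mem_primeFactors hp).squarefree
    simp only [Function.onFun, ← Nat.coprime_iff_isRelPrime]
    exact (Nat.coprime_primes (Nat.prime_of_mem_primeFactors hp)
      (Nat.prime_of_mem_primeFactors hq)).mpr hpq

/-- **The Hilbert-Speiser theorem in terms of characters**: an abelian number field `K` has a normal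
integral basis if and only if the conductors of its characters are squarefree. -/
theorem hasNormalIntegralBasis_iff_squarefree :
    HasNormalIntegralBasis K ↔ ∀ χ ∈ dirChars K, Squarefree χ.conductor :=
  ((hilbert_speiser K).out 0 4).trans (squarefree_conductor_iff K)

end Main

end Fermat.Agent.Cor.HS
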