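import Fermat.Agent.Corollaries.HS.Basis

/-!
# Cyclotomic fields of squarefree level

For squarefree `n` the primitive `n`-th roots of unity are a basis of the ring of integers of
`ℚ(ζ_n)`.
-/

set_option autoImplicit false

noncomputable section

namespace Fermat.Agent.Cor.HS

open NumberField IsCyclotomicExtension IsCyclotomicExtension.Rat

section Roots

variable {R : Type*} [CommRing R] [IsDomain R]

/-- For squarefree `n`, every `n`-th root of unity is an integral combination of primitive `n`-th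
roots of unity. -/
theorem mem_span_primitive {n : ℕ} (hn : Squarefree n) {ζ : R} (hζ : IsPrimitiveRoot ζ n) :
    ∀ {d : ℕ}, d ∣ n → ∀ {x : R}, IsPrimitiveRoot x d →
      x ∈ Submodule.span ℤ {y : R | IsPrimitiveRoot y n} := by
  have hn0 : n ≠ 0 := hn.ne_zero
  suffices H : ∀ (m d : ℕ), d * m = n → ∀ {x : R}, IsPrimitiveRoot x d →
      x ∈ Submodule.span ℤ {y : R | IsPrimitiveRoot y n} by
    rintro d ⟨m, hm⟩ x hx
    exact H m d hm.symm hx
  intro m
  induction m using Nat.strong_induction_on with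
  | _ m ih =>
    intro d hd x hx
    by_cases hm : m = 1
    · subst hm
      rw [mul_one] at hd
      subst hd
      exact Submodule.subset_span hx
    obtain ⟨q, hq, m', rfl⟩ := Nat.exists_prime_and_dvd hm
    have hm0 : m' ≠ 0 := by
      rintro rfl
      simp at hd
      exact hn0 hd.symm
    have hqd : Nat.Coprime d q := by
      rw [Nat.coprime_comm, Nat.Prime.coprime_iff_not_dvd hq]
      rintro ⟨d', rfl⟩
      refine hq.one_lt.ne' (Nat.isUnit_iff.mp (hn q ⟨d' * m', ?_⟩))
      rw [← hd]
      ring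
    have hω : IsPrimitiveRoot (ζ ^ (d * m')) q := by
      refine hζ.pow (Nat.pos_of_ne_zero hn0) ?_
      rw [← hd]
      ring
    set ω := ζ ^ (d * m') with hω'
    have h1 : x = -∑ i ∈ (Finset.range q).erase 0, x * ω ^ i := by
      rw [← Finset.mul_sum]
      have h2 := hω.geom_sum_eq_zero hq.one_lt
      rw [← Finset.add_sum_erase _ _ (Finset.mem_range.mpr hq.pos), pow_zero] at h2
      linear_combination x * h2
    rw [h1]
    refine Submodule.neg_mem _ (Submodule.sum_mem _ fun i hi => ?_)
    rw [Finset.mem_erase, Finset.mem_range] at hi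
    refine ih m' ?_ (d * q) (by rw [← hd]; ring) ?_
    · exact lt_mul_left (Nat.pos_of_ne_zero hm0) hq.one_lt
    · have h3 : IsPrimitiveRoot (ω ^ i) q := hω.pow_of_coprime i
        (Nat.coprime_of_lt_prime hi.1 hi.2 hq).symm
      rw [IsPrimitiveRoot.iff_orderOf, (Commute.all _ _).orderOf_mul_eq_mul_orderOf_of_coprime,
        ← hx.eq_orderOf, ← h3.eq_orderOf]
      rwa [← hx.eq_orderOf, ← h3.eq_orderOf]

end Roots

section Cyc

variable {n : ℕ} [NeZero n] {M : Type*} [Field M] [NumberField M] [IsCyclotomicExtension {n} ℚ M]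

/-- Every integer of `ℚ(ζ_n)`, `n` squarefree, is an integral combination of primitive `n`-th
roots of unity. -/
theorem exists_coord_cyclotomic (hn : Squarefree n) {ζ : M} (hζ : IsPrimitiveRoot ζ n)
    (y : 𝓞 M) : ∃ c : Gal(M/ℚ) → ℤ, (y : M) = ∑ σ, c σ • σ ζ := by
  have h1 : (y : M) ∈ Submodule.span ℤ (Set.range fun σ : Gal(M/ℚ) => σ ζ) := by
    have h2 : y ∈ Subalgebra.toSubmodule (Algebra.adjoin ℤ {hζ.toInteger}) := by
      rw [adjoin_singleton_eq_top hζ]
      trivial
    rw [Algebra.adjoin_eq_span] at h2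
    have h3 : (y : M) ∈ Submodule.map ((Algebra.linearMap (𝓞 M) M).restrictScalars ℤ)
        (Submodule.span ℤ (Submonoid.closure {hζ.toInteger} : Set (𝓞 M))) :=
      ⟨y, h2, rfl⟩
    rw [Submodule.map_span] at h3
    refine (Submodule.span_le.mpr ?_) h3
    rintro _ ⟨z, hz, rfl⟩
    rw [SetLike.mem_coe, Submonoid.mem_closure_singleton] at hz
    obtain ⟨i, rfl⟩ := hz
    have h4 : ((Algebra.linearMap (𝓞 M) M).restrictScalars ℤ) (hζ.toInteger ^ i) = ζ ^ i :=
      map_pow (algebraMap (𝓞 M) M) _ _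
    rw [h4]
    have h5 : orderOf (ζ ^ i) ∣ n := by
      refine orderOf_dvd_of_pow_eq_one ?_
      rw [← pow_mul, mul_comm, pow_mul, hζ.pow_eq_one, one_pow]
    have h6 := mem_span_primitive hn hζ h5 (IsPrimitiveRoot.orderOf (ζ ^ i))
    refine (Submodule.span_mono ?_) h6
    intro w hw
    obtain ⟨j, hj, hjn, rfl⟩ := hζ.isPrimitiveRoot_iff.mp hw
    refine ⟨(galEquivZMod n M).symm (ZMod.unitOfCoprime j hjn), ?_⟩
    change (galEquivZMod n M).symm (ZMod.unitOfCoprime j hjn) ζ = ζ ^ j
    rw [galEquivZMod_apply_of_pow_eq n M _ hζ.pow_eq_one, MulEquiv.apply_symm_apply,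
      ZMod.coe_unitOfCoprime, ZMod.val_natCast, Nat.mod_eq_of_lt hj]
  obtain ⟨c, hc⟩ := (Submodule.mem_span_range_iff_exists_fun ℤ).mp h1
  exact ⟨c, hc.symm⟩

/-- **For squarefree `n` the field `ℚ(ζ_n)` has a normal integral basis**, the primitive `n`-th
roots of unity. -/
theorem hasNormalIntegralBasis_cyclotomic (hn : Squarefree n) : HasNormalIntegralBasis M := by
  have : IsGalois ℚ M := IsCyclotomicExtension.isGalois {n} ℚ M
  have hζ := zeta_spec n ℚ M
  exact hasNormalIntegralBasis_of_span hζ.toInteger fun y => exists_coord_cyclotomic hn hζ y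

/-- A Galois extension of `ℚ` contained in `ℚ(ζ_n)`, `n` squarefree, has a normal integral
basis. -/
theorem hasNormalIntegralBasis_of_embedding (hn : Squarefree n) {K : Type*} [Field K]
    [NumberField K] [IsGalois ℚ K] (φ : K →ₐ[ℚ] M) : HasNormalIntegralBasis K := by
  have : IsGalois ℚ M := IsCyclotomicExtension.isGalois {n} ℚ M
  let _ : Algebra K M := φ.toRingHom.toAlgebra
  exact (hasNormalIntegralBasis_cyclotomic (n := n) (M := M) hn).of_algebra

end Cyc

end Fermat.Agent.Cor.HS
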