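import Fermat.Agent.Corollaries.HS.Conductor

/-!
# Normal integral bases: cyclotomic and quadratic fields
-/

set_option autoImplicit false

noncomputable section

namespace Fermat.Agent.Cor.HS

open NumberField NumberField.InfinitePlace Ideal IsCyclotomicExtension IsCyclotomicExtension.Rat
  Fermat.Agent.Cor.Abel DirichletCharacter

section Cyc

variable {n : ℕ} [NeZero n] {M : Type*} [Field M] [NumberField M]
  [hcyc : IsCyclotomicExtension {n} ℚ M]

include hcyc in
/-- **The field `ℚ(ζ_n)` has a normal integral basis if and only if `n` is squarefree.** -/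
theorem hasNormalIntegralBasis_cyclotomic_iff : HasNormalIntegralBasis M ↔ Squarefree n := by
  refine ⟨fun h => ?_, fun h => hasNormalIntegralBasis_cyclotomic h⟩
  have hab : IsAbelianGalois ℚ M := IsCyclotomicExtension.isAbelianGalois {n} ℚ M
  have htame := (hasNormalIntegralBasis_iff_isTame M).mp h
  rw [Nat.squarefree_iff_prime_squarefree]
  intro p hp hpn
  have hp' : Fact p.Prime := ⟨hp⟩
  have hmax : (span {(p : ℤ)}).IsMaximal := Int.ideal_span_isMaximal_of_prime p
  obtain ⟨P, _, _⟩ := exists_maximal_ideal_liesOver_of_isIntegral (span {(p : ℤ)}) (S := 𝓞 M)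
  obtain ⟨k, m, hm, hnk⟩ := Nat.exists_eq_pow_mul_and_not_dvd (NeZero.ne n) p hp.ne_one
  refine htame p hp P inferInstance inferInstance ?_
  rw [← ramificationIdxIn_eq_ramificationIdx (span {(p : ℤ)}) P Gal(M/ℚ),
    ramificationIdxIn_eq' hnk hm]
  have hk : 2 ≤ k := by
    by_contra hk
    push Not at hk
    rw [hnk] at hpn
    interval_cases k
    · rw [pow_zero, one_mul] at hpn
      exact hm ((dvd_mul_right p p).trans hpn)
    · rw [pow_one] at hpn
      exact hm (Nat.dvd_of_mul_dvd_mul_left hp.pos hpn)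
  obtain ⟨j, rfl⟩ := Nat.exists_eq_add_of_le hk
  rw [show 2 + j = (1 + j) + 1 by ring, Nat.totient_prime_pow_succ hp]
  exact (dvd_pow_self p (by omega)).mul_right _

end Cyc

section Quadratic

variable (K : Type*) [Field K] [NumberField K]

/-- **The conductor of a quadratic field is the absolute value of its discriminant.** -/
theorem conductor_of_finrank_two (h : Module.finrank ℚ K = 2) :
    conductor K = (discr K).natAbs := by
  classical
  have hab := isAbelianGalois_of_finrank_two K h
  have h1 : ((dirChars K).erase 1).card = 1 := by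
    rw [Finset.card_erase_of_mem (one_mem_dirChars K), card_dirChars, h]
  obtain ⟨ψ, hψ⟩ := Finset.card_eq_one.mp h1
  have h2 : dirChars K = insert 1 {ψ} := by
    rw [← hψ, Finset.insert_erase (one_mem_dirChars K)]
  have h3 : ψ ≠ 1 := by
    refine Finset.ne_of_mem_erase (s := dirChars K) ?_
    rw [hψ]
    exact Finset.mem_singleton_self ψ
  rw [natAbs_discr_eq_prod, conductor_eq_lcm, h2, Finset.lcm_insert, Finset.lcm_singleton,
    Finset.prod_insert (by rw [Finset.mem_singleton]; exact h3.symm), Finset.prod_singleton,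
    conductor_one, one_mul, normalize_eq]
  exact Nat.lcm_one_left _

/-- **A quadratic field `K` is contained in `ℚ(ζ_m)` if and only if `|d_K|` divides `m`.** -/
theorem nonempty_algHom_quadratic_iff (h : Module.finrank ℚ K = 2) {m : ℕ} (hm : 0 < m) :
    Nonempty (K →ₐ[ℚ] CyclotomicField m ℚ) ↔ (discr K).natAbs ∣ m := by
  have hab := isAbelianGalois_of_finrank_two K h
  rw [nonempty_algHom_iff_conductor_dvd K hm, conductor_of_finrank_two K h]

/-- A prime of a quadratic field has ramification index `2` if and only if it divides the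
discriminant. -/
theorem ramificationIdx_quadratic (h : Module.finrank ℚ K = 2) {p : ℕ} (hp : p.Prime)
    (P : Ideal (𝓞 K)) [P.IsPrime] [P.LiesOver (span {(p : ℤ)})] :
    P.ramificationIdx ℤ = if (p : ℤ) ∣ discr K then 2 else 1 := by
  have hp' : Fact p.Prime := ⟨hp⟩
  have hab := isAbelianGalois_of_finrank_two K h
  have hmax : (span {(p : ℤ)}).IsMaximal := Int.ideal_span_isMaximal_of_prime p
  obtain ⟨N, _, χ, hN, -, -, -, -, -, -, -, -, H⟩ := exists_quadratic_character K h
  have hd := (decomposition_law h hN H hp).2.2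
  have hT := H p hp P (-1)
  set g := ((span {(p : ℤ)}).primesOver (𝓞 K)).ncard with hg
  have hg0 : 0 < g := Nat.pos_of_ne_zero (IsDedekindDomain.primesOver_ncard_ne_zero _ _)
  have hf0 : 0 < P.inertiaDeg ℤ := P.inertiaDeg_pos ℤ
  have hefg : g * (P.ramificationIdx ℤ * P.inertiaDeg ℤ) = 2 := by
    have h1 := ncard_primesOver_mul_ramificationIdxIn_mul_inertiaDegIn (span {(p : ℤ)}) (𝓞 K)
      Gal(K/ℚ)
    rwa [IsGalois.card_aut_eq_finrank, h, ramificationIdxIn_eq_ramificationIdx (span {(p : ℤ)}) P
      Gal(K/ℚ), inertiaDegIn_eq_inertiaDeg (span {(p : ℤ)}) P Gal(K/ℚ)] at h1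
  have key : ∀ g e f : ℕ, g * (e * f) = 2 →
      (e = 2 ∧ f = 1 ∧ g = 1) ∨ (e = 1 ∧ f = 1 ∧ g = 2) ∨ (e = 1 ∧ f = 2 ∧ g = 1) := by
    intro g e f hgef
    have h1 : g ∣ 2 := Dvd.intro _ hgef
    have h2 : e ∣ 2 := (Dvd.intro _ rfl : e ∣ e * f).trans (Dvd.intro_left _ hgef)
    have h3 : f ∣ 2 := (Dvd.intro_left _ rfl : f ∣ e * f).trans (Dvd.intro_left _ hgef)
    rcases (Nat.dvd_prime Nat.prime_two).mp h1 with rfl | rfl <;>
    rcases (Nat.dvd_prime Nat.prime_two).mp h2 with rfl | rfl <;>
    rcases (Nat.dvd_prime Nat.prime_two).mp h3 with rfl | rfl <;> simp_all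
  rcases key _ _ _ hefg with ⟨he, hf, hg1⟩ | ⟨he, hf, hg1⟩ | ⟨he, hf, hg1⟩
  · rw [hf, hg1] at hT
    have h1 : χ p = 0 := by linear_combination hT / 2
    rw [if_pos (hd.mp h1), he]
  · rw [hf, hg1] at hT
    have h1 : χ p = 1 := by linear_combination hT / 2
    rw [if_neg (fun h2 => by rw [hd.mpr h2] at h1; norm_num at h1), he]
  · rw [hf, hg1] at hT
    have h1 : χ p = -1 := by linear_combination hT / 2
    rw [if_neg (fun h2 => by rw [hd.mpr h2] at h1; norm_num at h1), he]

/-- **A quadratic field has a normal integral basis if and only if its discriminant is odd.** -/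
theorem hasNormalIntegralBasis_quadratic_iff (h : Module.finrank ℚ K = 2) :
    HasNormalIntegralBasis K ↔ Odd (discr K) := by
  have hab := isAbelianGalois_of_finrank_two K h
  rw [hasNormalIntegralBasis_iff_isTame, ← Int.not_even_iff_odd, even_iff_two_dvd]
  constructor
  · intro ht hd
    have h2 : Fact (Nat.Prime 2) := ⟨Nat.prime_two⟩
    have hmax : (span {((2 : ℕ) : ℤ)}).IsMaximal := Int.ideal_span_isMaximal_of_prime 2
    obtain ⟨P, _, _⟩ := exists_maximal_ideal_liesOver_of_isIntegral (span {((2 : ℕ) : ℤ)})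
      (S := 𝓞 K)
    have h1 := ramificationIdx_quadratic K h Nat.prime_two P
    rw [if_pos (by exact_mod_cast hd)] at h1
    exact ht 2 Nat.prime_two P inferInstance inferInstance (by rw [h1])
  · intro hd p hp P hP hPp hdvd
    have h1 := ramificationIdx_quadratic K h hp P
    rw [h1] at hdvd
    by_cases hpd : (p : ℤ) ∣ discr K
    · rw [if_pos hpd] at hdvd
      have h2 : p = 2 := (Nat.prime_dvd_prime_iff_eq hp Nat.prime_two).mp hdvd
      subst h2
      exact hd (by exact_mod_cast hpd)
    · rw [if_neg hpd] at hdvd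
      exact hp.one_lt.ne' (Nat.dvd_one.mp hdvd)

end Quadratic

end Fermat.Agent.Cor.HS
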