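import Fermat.Agent.Corollaries.HS.Cyc
import Fermat.Agent.Corollaries.ZetaK.AbelField

/-!
# The level of an abelian field which has an integer of trace one

If `K` is contained in `ℚ(ζ_n)`, `p ^ 2 ∣ n`, but not in `ℚ(ζ_{n/p})`, then all traces of integers
of `K` are divisible by `p`.
-/

set_option autoImplicit false

noncomputable section

namespace Fermat.Agent.Cor.HS

open NumberField IsCyclotomicExtension IsCyclotomicExtension.Rat Fermat.Agent.Cor.Abel

section Ker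

variable {p n' n : ℕ} [NeZero n] {M : Type*} [Field M] [NumberField M]
  [hcyc : IsCyclotomicExtension {n} ℚ M]

theorem card_ker_galMod_of_dvd (hp : p.Prime) (hn : n = p * n') (hpn : p ∣ n') :
    Nat.card (galMod n M (Dvd.intro_left _ hn.symm)).ker = p := by
  have : NeZero n' := ⟨fun h => NeZero.ne n (by rw [hn, h, mul_zero])⟩
  have h := (galMod n M (Dvd.intro_left _ hn.symm)).ker.card_mul_index
  rw [Subgroup.index_ker, MonoidHom.range_eq_top.mpr (galMod_surjective n M _),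
    Subgroup.card_top, Nat.card_congr (galEquivZMod n M).toEquiv,
    Nat.card_eq_fintype_card (α := (ZMod n')ˣ), Nat.card_eq_fintype_card (α := (ZMod n)ˣ),
    ZMod.card_units_eq_totient, ZMod.card_units_eq_totient] at h
  have h2 : Nat.totient n = p * Nat.totient n' := by
    rw [hn, Nat.totient_mul_of_prime_of_dvd hp hpn]
  rw [h2] at h
  exact Nat.eq_of_mul_eq_mul_right (Nat.totient_pos.mpr (NeZero.pos n')) h

variable {ζ : M} (hζ : IsPrimitiveRoot ζ n)

include hζ in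
/-- The elements of the kernel multiply `ζ` by a `p`-th root of unity. -/
theorem exists_pow_of_mem_ker (hn : n = p * n') {h : Gal(M/ℚ)}
    (hh : h ∈ (galMod n M (Dvd.intro_left _ hn.symm)).ker) :
    ∃ t : ℕ, h ζ = ζ * (ζ ^ n') ^ t := by
  have hn'0 : n' ≠ 0 := fun h => NeZero.ne n (by rw [hn, h, mul_zero])
  have : NeZero n' := ⟨hn'0⟩
  set a := (galEquivZMod n M h).val.val with ha
  have h1 : h ζ = ζ ^ a := galEquivZMod_apply_of_pow_eq n M h hζ.pow_eq_one
  have h2 : ((a : ℕ) : ZMod n') = 1 := by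
    rw [MonoidHom.mem_ker, galMod_apply] at hh
    have h3 := congrArg Units.val hh
    rw [ZMod.unitsMap_val, Units.val_one] at h3
    rw [ha, ZMod.natCast_val]
    exact h3
  have h3 : a ≡ 1 [MOD n'] := by
    rw [← ZMod.natCast_eq_natCast_iff, h2, Nat.cast_one]
  -- `ζ ^ (a + n * s) = ζ ^ a`, choose the representative `≥ 1`
  have h4 : 1 ≡ a + n [MOD n'] := by
    have h5 : a + n ≡ 1 + 0 [MOD n'] := by
      refine h3.add ?_
      rw [Nat.modEq_zero_iff_dvd, hn]
      exact dvd_mul_left _ _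
    exact h5.symm
  have h5 : 1 ≤ a + n := (NeZero.pos n).trans_le (Nat.le_add_left _ _)
  obtain ⟨t, ht⟩ := (Nat.modEq_iff_dvd' h5).mp h4
  refine ⟨t, ?_⟩
  rw [h1, ← pow_mul, ← ht, ← pow_succ', Nat.sub_add_cancel h5, pow_add, hζ.pow_eq_one, mul_one]

theorem pow_fixed_of_mem_ker (hζ : IsPrimitiveRoot ζ n) (hn : n = p * n') {h : Gal(M/ℚ)}
    (hh : h ∈ (galMod n M (Dvd.intro_left _ hn.symm)).ker) : h (ζ ^ p) = ζ ^ p := by
  obtain ⟨t, ht⟩ := exists_pow_of_mem_ker hζ hn hh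
  rw [map_pow, ht, mul_pow, ← pow_mul, ← pow_mul,
    show n' * (t * p) = n * t by rw [hn]; ring, pow_mul, hζ.pow_eq_one, one_pow, mul_one]

theorem mem_ker_of_pow_fixed (hζ : IsPrimitiveRoot ζ n) (hn : n = p * n')
    {h : Gal(M/ℚ)} (hh : h (ζ ^ p) = ζ ^ p) :
    h ∈ (galMod n M (Dvd.intro_left _ hn.symm)).ker := by
  have hn'0 : n' ≠ 0 := fun h => NeZero.ne n (by rw [hn, h, mul_zero])
  have : NeZero n' := ⟨hn'0⟩
  have hζp : IsPrimitiveRoot (ζ ^ p) n' := hζ.pow (NeZero.pos n) hn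
  set a := (galEquivZMod n M h).val.val with ha
  have h1 : h ζ = ζ ^ a := galEquivZMod_apply_of_pow_eq n M h hζ.pow_eq_one
  rw [map_pow, h1, ← pow_mul, mul_comm, pow_mul] at hh
  have h2 : (ζ ^ p) ^ a = (ζ ^ p) ^ 1 := by rw [hh, pow_one]
  rw [(hζp.isOfFinOrder (NeZero.ne _)).pow_inj_mod, ← hζp.eq_orderOf,
    ← ZMod.natCast_eq_natCast_iff', ha, ZMod.natCast_val, Nat.cast_one] at h2
  rw [MonoidHom.mem_ker, galMod_apply, Units.ext_iff, ZMod.unitsMap_val, Units.val_one]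
  exact h2

/-- **The sum over the kernel of the conjugates of an integer is divisible by `p`.** -/
theorem sum_ker_dvd (hp : p.Prime) (hn : n = p * n') (hpn : p ∣ n')
    (H : Subgroup Gal(M/ℚ)) (hH : H = (galMod n M (Dvd.intro_left _ hn.symm)).ker) [Fintype H]
    (x : 𝓞 M) :
    ∃ y : M, IsIntegral ℤ y ∧ ∑ h : H, (h : Gal(M/ℚ)) (x : M) = p * y := by
  have hζ := zeta_spec n ℚ M
  set ζ := zeta n ℚ M with hζ'
  have hcard : Nat.card H = p := by rw [hH, card_ker_galMod_of_dvd hp hn hpn]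
  have hξ : IsPrimitiveRoot (ζ ^ n') p := hζ.pow (NeZero.pos n) (by rw [hn, mul_comm])
  obtain ⟨n'', hn''⟩ := hpn
  -- `H` fixes the `p`-th roots of unity
  have hfix : ∀ h ∈ H, h (ζ ^ n') = ζ ^ n' := by
    intro h hh
    rw [hn'', pow_mul, map_pow, pow_fixed_of_mem_ker hζ hn (hH ▸ hh)]
  -- a non-trivial element of `H`
  have hnt : ∃ h₀ ∈ H, h₀ ≠ 1 := by
    by_contra hcon
    push Not at hcon
    have h1 : H = ⊥ := (Subgroup.eq_bot_iff_forall _).mpr hcon
    rw [h1, Subgroup.card_bot] at hcard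
    exact hp.one_lt.ne hcard
  obtain ⟨h₀, hh₀, hne⟩ := hnt
  obtain ⟨t₀, ht₀⟩ := exists_pow_of_mem_ker hζ hn (hH ▸ hh₀)
  have ht₀p : ¬ p ∣ t₀ := by
    intro hd
    rw [(hξ.pow_eq_one_iff_dvd _).mpr hd, mul_one] at ht₀
    refine hne ((galEquivZMod n M).injective ?_)
    rw [galEquivZMod_apply_of_pow_eq n M h₀ hζ.pow_eq_one] at ht₀
    have h1 : ζ ^ ((galEquivZMod n M h₀).val.val) = ζ ^ 1 := by rw [ht₀, pow_one]
    rw [(hζ.isOfFinOrder (NeZero.ne _)).pow_inj_mod, ← hζ.eq_orderOf,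
      ← ZMod.natCast_eq_natCast_iff', ZMod.natCast_val, Nat.cast_one, ZMod.cast_id] at h1
    rw [map_one, Units.ext_iff, h1, Units.val_one]
  -- the powers of `ζ`
  have hpow : ∀ i : ℕ, ∃ y : M, IsIntegral ℤ y ∧ ∑ h : H, (h : Gal(M/ℚ)) (ζ ^ i) = p * y := by
    intro i
    by_cases hi : p ∣ i
    · obtain ⟨j, rfl⟩ := hi
      refine ⟨ζ ^ (p * j), (hζ.isIntegral (NeZero.pos n)).pow _, ?_⟩
      have h1 : ∀ h : H, (h : Gal(M/ℚ)) (ζ ^ (p * j)) = ζ ^ (p * j) := by
        intro h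
        rw [pow_mul, map_pow, pow_fixed_of_mem_ker hζ hn (hH ▸ h.2)]
      rw [Finset.sum_congr rfl fun h _ => h1 h, Finset.sum_const,
        Finset.card_univ, ← Nat.card_eq_fintype_card, hcard, nsmul_eq_mul]
    · refine ⟨0, isIntegral_zero, ?_⟩
      rw [mul_zero]
      set s := ∑ h : H, (h : Gal(M/ℚ)) (ζ ^ i) with hs
      have h1 : ∑ h : H, (h : Gal(M/ℚ)) (h₀ (ζ ^ i)) = s := by
        rw [hs]
        refine Fintype.sum_equiv (Equiv.mulRight (⟨h₀, hh₀⟩ : H)) _ _ fun h => ?_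
        rw [Equiv.coe_mulRight, Subgroup.coe_mul, AlgEquiv.mul_apply]
      have h2 : ∑ h : H, (h : Gal(M/ℚ)) (h₀ (ζ ^ i)) = s * (ζ ^ n') ^ (t₀ * i) := by
        rw [hs, Finset.sum_mul]
        refine Finset.sum_congr rfl fun h _ => ?_
        rw [map_pow h₀, ht₀, mul_pow, map_mul, ← pow_mul, map_pow _ (ζ ^ n'), hfix _ h.2]
      rw [h1] at h2
      have h3 : (ζ ^ n') ^ (t₀ * i) ≠ 1 := by
        rw [Ne, hξ.pow_eq_one_iff_dvd, hp.dvd_mul]
        exact not_or.mpr ⟨ht₀p, hi⟩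
      by_contra hs0
      exact h3 (mul_left_cancel₀ hs0 (by rw [← h2, mul_one]))
  -- all integers
  have hx : x ∈ Subalgebra.toSubmodule (Algebra.adjoin ℤ {hζ.toInteger}) := by
    rw [adjoin_singleton_eq_top hζ]
    trivial
  rw [Algebra.adjoin_eq_span] at hx
  induction hx using Submodule.span_induction with
  | mem z hz =>
    rw [SetLike.mem_coe, Submonoid.mem_closure_singleton] at hz
    obtain ⟨i, rfl⟩ := hz
    exact hpow i
  | zero => exact ⟨0, isIntegral_zero, by simp⟩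
  | add a b _ _ ha hb =>
    obtain ⟨u, hu, hu'⟩ := ha
    obtain ⟨v, hv, hv'⟩ := hb
    refine ⟨u + v, hu.add hv, ?_⟩
    rw [mul_add, ← hu', ← hv', ← Finset.sum_add_distrib]
    exact Finset.sum_congr rfl fun h _ => map_add (h : Gal(M/ℚ)) (a : M) b
  | smul c a _ ha =>
    obtain ⟨u, hu, hu'⟩ := ha
    refine ⟨c • u, hu.smul c, ?_⟩
    rw [mul_smul_comm, ← hu', Finset.smul_sum]
    refine Finset.sum_congr rfl fun h _ => ?_
    rw [← map_zsmul]
    rfl

end Ker

section Restr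

variable {p n' n : ℕ} [NeZero n] {M : Type*} [Field M] [NumberField M]
  [hcyc : IsCyclotomicExtension {n} ℚ M] {K : Type*} [Field K] [NumberField K] [IsGalois ℚ K]
  [Algebra K M]

open IntermediateField in
/-- If the kernel acts trivially on `K`, then `K` is contained in `ℚ(ζ_{n'})`. -/
theorem nonempty_algHom_of_trivial (hn : n = p * n')
    (h : ∀ σ ∈ (galMod n M (Dvd.intro_left _ hn.symm)).ker,
      AlgEquiv.restrictNormalHom (F := ℚ) K σ = 1) :
    Nonempty (K →ₐ[ℚ] CyclotomicField n' ℚ) := by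
  have hn'0 : n' ≠ 0 := fun h => NeZero.ne n (by rw [hn, h, mul_zero])
  have : NeZero n' := ⟨hn'0⟩
  have : NeZero ((n' : ℕ) : ℚ) := ⟨by exact_mod_cast hn'0⟩
  have hM : IsGalois ℚ M := IsCyclotomicExtension.isGalois {n} ℚ M
  have hζ := zeta_spec n ℚ M
  have hζp : IsPrimitiveRoot (zeta n ℚ M ^ p) n' := hζ.pow (NeZero.pos n) hn
  have hE : IsCyclotomicExtension {n'} ℚ ℚ⟮zeta n ℚ M ^ p⟯ :=
    hζp.intermediateField_adjoin_isCyclotomicExtension ℚ
  have hE' : IsCyclotomicExtension {n'} ℚ (CyclotomicField n' ℚ) :=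
    CyclotomicField.isCyclotomicExtension n' ℚ
  let φ : K →ₐ[ℚ] M := IsScalarTower.toAlgHom ℚ K M
  have h1 : ∀ x : K, φ x ∈ ℚ⟮zeta n ℚ M ^ p⟯ := by
    intro x
    rw [← IsGalois.fixedField_fixingSubgroup ℚ⟮zeta n ℚ M ^ p⟯]
    rw [IntermediateField.mem_fixedField_iff]
    intro σ hσ
    have h2 : σ (zeta n ℚ M ^ p) = zeta n ℚ M ^ p :=
      (IntermediateField.mem_fixingSubgroup_iff _ _).mp hσ _ (mem_adjoin_simple_self ℚ _)
    have h3 := h σ (mem_ker_of_pow_fixed hζ hn h2)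
    have h4 := AlgEquiv.restrictNormal_commutes σ K x
    have h5 : σ.restrictNormal K = 1 := h3
    rw [h5, AlgEquiv.one_apply] at h4
    exact h4.symm
  exact ⟨(IsCyclotomicExtension.algEquiv {n'} ℚ ℚ⟮zeta n ℚ M ^ p⟯
    (CyclotomicField n' ℚ)).toAlgHom.comp (φ.codRestrict ℚ⟮zeta n ℚ M ^ p⟯.toSubalgebra h1)⟩

theorem restrict_trivial_or_injective (hp : p.Prime) (hn : n = p * n') (hpn : p ∣ n')
    (H : Subgroup Gal(M/ℚ)) (hH : H = (galMod n M (Dvd.intro_left _ hn.symm)).ker) :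
    (∀ σ ∈ H, AlgEquiv.restrictNormalHom (F := ℚ) K σ = 1) ∨
      Function.Injective ((AlgEquiv.restrictNormalHom (F := ℚ) K).comp H.subtype) := by
  have hcard : Nat.card H = p := by rw [hH, card_ker_galMod_of_dvd hp hn hpn]
  have : Fact (Nat.card H).Prime := ⟨by rwa [hcard]⟩
  rcases Subgroup.eq_bot_or_eq_top_of_prime_card
    ((AlgEquiv.restrictNormalHom (F := ℚ) K).comp H.subtype).ker with h | h
  · exact Or.inr ((MonoidHom.ker_eq_bot_iff _).mp h)
  · left
    intro σ hσ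
    have h1 : (⟨σ, hσ⟩ : H) ∈ ((AlgEquiv.restrictNormalHom (F := ℚ) K).comp H.subtype).ker := by
      rw [h]
      trivial
    exact h1

/-- If the kernel acts faithfully on `K`, the traces of the integers of `K` are divisible by
`p`. -/
theorem exists_integral_trace (hp : p.Prime) (hn : n = p * n') (hpn : p ∣ n')
    (H : Subgroup Gal(M/ℚ)) (hH : H = (galMod n M (Dvd.intro_left _ hn.symm)).ker)
    (hinj : Function.Injective ((AlgEquiv.restrictNormalHom (F := ℚ) K).comp H.subtype))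
    (x : 𝓞 K) :
    ∃ y : M, IsIntegral ℤ y ∧ algebraMap K M (algebraMap ℚ K (Algebra.trace ℚ K (x : K))) =
      p * y := by
  classical
  have hM : IsGalois ℚ M := IsCyclotomicExtension.isGalois {n} ℚ M
  have : Fintype H := Fintype.ofFinite _
  set r := (AlgEquiv.restrictNormalHom (F := ℚ) K).comp H.subtype with hr
  have hFN : Fintype (Gal(K/ℚ) ⧸ r.range) := Fintype.ofFinite _
  obtain ⟨y, hy, hy'⟩ := sum_ker_dvd hp hn hpn H hH
    (⟨algebraMap K M x, x.isIntegral_coe.algebraMap⟩ : 𝓞 M)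
  replace hy' : ∑ h : H, (h : Gal(M/ℚ)) (algebraMap K M x) = p * y := hy'
  choose l hl using AlgEquiv.restrictNormalHom_surjective (F := ℚ) (K₁ := K) M
  have hbij : Function.Bijective (fun a : (Gal(K/ℚ) ⧸ r.range) × H => a.1.out * r a.2) := by
    constructor
    · rintro ⟨q, h⟩ ⟨q', h'⟩ he
      simp only at he
      have h1 : ∀ (q : Gal(K/ℚ) ⧸ r.range) (h : H),
          (QuotientGroup.mk (q.out * r h) : Gal(K/ℚ) ⧸ r.range) = q := by
        intro q h
        rw [QuotientGroup.mk_mul_of_mem _ (⟨h, rfl⟩ : r h ∈ r.range)]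
        exact Quotient.out_eq' q
      have h2 : q = q' := by rw [← h1 q h, he, h1 q' h']
      subst h2
      rw [hinj (mul_left_cancel he)]
    · intro g
      have h1 : ((QuotientGroup.mk g : Gal(K/ℚ) ⧸ r.range).out)⁻¹ * g ∈ r.range := by
        rw [← QuotientGroup.eq]
        exact Quotient.out_eq' _
      obtain ⟨h, hh⟩ := h1
      exact ⟨⟨QuotientGroup.mk g, h⟩, by simp only; rw [hh, mul_inv_cancel_left]⟩
  refine ⟨∑ q : Gal(K/ℚ) ⧸ r.range, l q.out y, IsIntegral.sum _ fun q _ => hy.map _, ?_⟩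
  rw [trace_eq_sum_automorphisms, ← (Equiv.ofBijective _ hbij).sum_comp, Fintype.sum_prod_type,
    map_sum, Finset.mul_sum]
  refine Finset.sum_congr rfl fun q _ => ?_
  rw [map_sum]
  have h2 : ∀ h : H, algebraMap K M ((q.out * r h : Gal(K/ℚ)) x) =
      l q.out ((h : Gal(M/ℚ)) (algebraMap K M x)) := by
    intro h
    have h3 := AlgEquiv.restrictNormal_commutes (l q.out * (h : Gal(M/ℚ))) K (x : K)
    have h4 : (l q.out * (h : Gal(M/ℚ))).restrictNormal K = q.out * r h := by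
      change AlgEquiv.restrictNormalHom K (l q.out * (h : Gal(M/ℚ))) = _
      rw [map_mul, hl]
      rfl
    rw [h4] at h3
    exact h3
  refine (Finset.sum_congr rfl fun h _ => h2 h).trans ?_
  rw [← map_sum, hy', map_mul, map_natCast]

/-- If the kernel acts faithfully on `K`, then `K` has no integer of trace `1`. -/
theorem trace_ne_one (hp : p.Prime) (hn : n = p * n') (hpn : p ∣ n')
    (H : Subgroup Gal(M/ℚ)) (hH : H = (galMod n M (Dvd.intro_left _ hn.symm)).ker)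
    (hinj : Function.Injective ((AlgEquiv.restrictNormalHom (F := ℚ) K).comp H.subtype))
    (x : 𝓞 K) : Algebra.trace ℚ K (x : K) ≠ 1 := by
  intro h1
  obtain ⟨y, hy, hy'⟩ := exists_integral_trace hp hn hpn H hH hinj x
  rw [h1, map_one, map_one] at hy'
  have hp0 : (p : M) ≠ 0 := by exact_mod_cast hp.ne_zero
  have h2 : y = algebraMap ℚ M ((p : ℚ)⁻¹) := by
    rw [map_inv₀, map_natCast]
    exact eq_inv_of_mul_eq_one_right hy'.symm
  rw [h2, isIntegral_algebraMap_iff (algebraMap ℚ M).injective,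
    IsIntegrallyClosed.isIntegral_iff] at hy
  obtain ⟨k, hk⟩ := hy
  have h3 : (p : ℤ) * k = 1 := by
    have h4 : ((p : ℚ)) * k = 1 := by
      rw [← eq_intCast (algebraMap ℤ ℚ) k, hk, mul_inv_cancel₀ (by exact_mod_cast hp.ne_zero)]
    exact_mod_cast h4
  have h5 := Int.natAbs_dvd_natAbs.mpr (Dvd.intro _ h3)
  simp only [Int.natAbs_natCast, Int.natAbs_one] at h5
  exact hp.one_lt.ne' (Nat.dvd_one.mp h5)

end Restr

end Fermat.Agent.Cor.HS
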