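import Fermat.Agent.Corollaries.HS.Tame

/-!
# The Hilbert-Speiser theorem

An abelian number field has a normal integral basis if and only if it is tamely ramified over `ℚ`,
if and only if it is contained in a cyclotomic field `ℚ(ζ_n)` with squarefree `n`
(Hilbert 1897, Speiser 1916).

* `Basis.lean`: normal integral bases, the passage to subfields by the trace;
* `Cyc.lean`: for squarefree `n` the primitive `n`-th roots of unity are a basis;
* `Level.lean`: if `K ⊆ ℚ(ζ_n)`, `p ^ 2 ∣ n`, and `K ⊄ ℚ(ζ_{n/p})`, all traces of integers of `K`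
  are divisible by `p`;
* `Tame.lean`: in this case `K` is wildly ramified at `p`;
* the Kronecker-Weber theorem (`KW/Final.lean`).
-/

set_option autoImplicit false

noncomputable section

namespace Fermat.Agent.Cor.HS

open NumberField Ideal IsCyclotomicExtension IsCyclotomicExtension.Rat Fermat.Agent.Cor.Abel

/-- The **conductor** of an abelian number field `K`: the smallest `n ≥ 1` such that `K` is
contained in the `n`-th cyclotomic field. -/
def conductor (K : Type*) [Field K] [NumberField K] : ℕ :=
  sInf {n : ℕ | 0 < n ∧ Nonempty (K →ₐ[ℚ] CyclotomicField n ℚ)}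

section Main

variable (K : Type*) [Field K] [NumberField K] [IsAbelianGalois ℚ K]

theorem conductor_spec : 0 < conductor K ∧
    Nonempty (K →ₐ[ℚ] CyclotomicField (conductor K) ℚ) :=
  Nat.sInf_mem (s := {n : ℕ | 0 < n ∧ Nonempty (K →ₐ[ℚ] CyclotomicField n ℚ)})
    (KW.kronecker_weber K)

omit [IsAbelianGalois ℚ K] in
theorem conductor_le {n : ℕ} (hn : 0 < n) (h : Nonempty (K →ₐ[ℚ] CyclotomicField n ℚ)) :
    conductor K ≤ n :=
  Nat.sInf_le ⟨hn, h⟩

instance neZero_conductor : NeZero (conductor K) := ⟨(conductor_spec K).1.ne'⟩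

theorem isCyclotomicExtension_conductor :
    IsCyclotomicExtension {conductor K} ℚ (CyclotomicField (conductor K) ℚ) := by
  have : NeZero ((conductor K : ℕ) : ℚ) := ⟨by exact_mod_cast NeZero.ne (conductor K)⟩
  exact CyclotomicField.isCyclotomicExtension (conductor K) ℚ

/-- If the conductor `n` of `K` is not squarefree, there is a prime `p` with `n = p * n'`,
`p ∣ n'`, such that the automorphisms of `ℚ(ζ_n)` over `ℚ(ζ_{n'})` act faithfully on `K`. -/
theorem exists_faithful (h : ¬ Squarefree (conductor K)) :
    ∃ (_ : Algebra K (CyclotomicField (conductor K) ℚ)) (p n' : ℕ) (_ : p.Prime)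
      (hn : conductor K = p * n') (_ : p ∣ n'),
      haveI := isCyclotomicExtension_conductor K
      Function.Injective ((AlgEquiv.restrictNormalHom (F := ℚ) K).comp
        (galMod (conductor K) (CyclotomicField (conductor K) ℚ)
          (Dvd.intro_left _ hn.symm : n' ∣ conductor K)).ker.subtype) := by
  have hcyc := isCyclotomicExtension_conductor K
  rw [Nat.squarefree_iff_prime_squarefree] at h
  push Not at h
  obtain ⟨p, hp, n'', hn''⟩ := h
  obtain ⟨φ⟩ := (conductor_spec K).2
  let _ : Algebra K (CyclotomicField (conductor K) ℚ) := φ.toRingHom.toAlgebra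
  have hn : conductor K = p * (p * n'') := by rw [hn'', mul_assoc]
  refine ⟨φ.toRingHom.toAlgebra, p, p * n'', hp, hn, dvd_mul_right _ _, ?_⟩
  refine (restrict_trivial_or_injective hp hn (dvd_mul_right _ _) _ rfl).resolve_left fun htr => ?_
  have h1 := nonempty_algHom_of_trivial (K := K) hn htr
  have hpos := (conductor_spec K).1
  have h2 : 0 < p * n'' := by
    rw [hn] at hpos
    exact Nat.pos_of_mul_pos_left hpos
  have h3 := conductor_le K h2 h1
  have h4 : p * n'' < conductor K := by
    conv_rhs => rw [hn]
    exact lt_mul_left h2 hp.one_lt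
  omega

/-- **The Hilbert-Speiser theorem.**  For an abelian number field `K` the following are
equivalent: `K` has a normal integral basis; `K` has an integer of trace `1`; `K` is tamely
ramified over `ℚ`; `K` is contained in the field of the `n`-th roots of unity for a squarefree
`n`; the conductor of `K` is squarefree. -/
theorem hilbert_speiser : List.TFAE [
    HasNormalIntegralBasis K,
    ∃ x : 𝓞 K, Algebra.trace ℚ K (x : K) = 1,
    IsTame K,
    ∃ n : ℕ, Squarefree n ∧ Nonempty (K →ₐ[ℚ] CyclotomicField n ℚ),
    Squarefree (conductor K)] := by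
  have hcyc := isCyclotomicExtension_conductor K
  tfae_have 1 → 2 := fun h => h.exists_trace_eq_one
  tfae_have 2 → 5 := by
    rintro ⟨x, hx⟩
    by_contra hsq
    obtain ⟨_, p, n', hp, hn, hpn, hinj⟩ := exists_faithful K hsq
    exact trace_ne_one hp hn hpn _ rfl hinj x hx
  tfae_have 3 → 5 := by
    intro ht
    by_contra hsq
    obtain ⟨_, p, n', hp, hn, hpn, hinj⟩ := exists_faithful K hsq
    obtain ⟨P, hP, hPp, hdvd⟩ := dvd_ramificationIdx hp hn hpn _ rfl hinj
    exact ht p hp P hP hPp hdvd
  tfae_have 5 → 4 := fun h => ⟨conductor K, h, (conductor_spec K).2⟩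
  tfae_have 4 → 1 := by
    rintro ⟨n, hn, ⟨φ⟩⟩
    have : NeZero n := ⟨hn.ne_zero⟩
    have : NeZero ((n : ℕ) : ℚ) := ⟨by exact_mod_cast hn.ne_zero⟩
    have : IsCyclotomicExtension {n} ℚ (CyclotomicField n ℚ) :=
      CyclotomicField.isCyclotomicExtension n ℚ
    exact hasNormalIntegralBasis_of_embedding hn φ
  tfae_have 4 → 3 := by
    rintro ⟨n, hn, ⟨φ⟩⟩
    have : NeZero n := ⟨hn.ne_zero⟩
    have : NeZero ((n : ℕ) : ℚ) := ⟨by exact_mod_cast hn.ne_zero⟩
    have : IsCyclotomicExtension {n} ℚ (CyclotomicField n ℚ) :=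
      CyclotomicField.isCyclotomicExtension n ℚ
    let _ : Algebra K (CyclotomicField n ℚ) := φ.toRingHom.toAlgebra
    exact isTame_of_squarefree (n := n) (M := CyclotomicField n ℚ) hn
  tfae_finish

/-- **The Hilbert-Speiser theorem**: an abelian number field has a normal integral basis if and
only if it is tamely ramified. -/
theorem hasNormalIntegralBasis_iff_isTame : HasNormalIntegralBasis K ↔ IsTame K :=
  (hilbert_speiser K).out 0 2

end Main

end Fermat.Agent.Cor.HS
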