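import Fermat.Agent.Corollaries.HS.Level

/-!
# Tamely ramified abelian fields
-/

set_option autoImplicit false

noncomputable section

namespace Fermat.Agent.Cor.HS

open NumberField Ideal IsCyclotomicExtension IsCyclotomicExtension.Rat Fermat.Agent.Cor.Abel

/-- The number field `K` is **tamely ramified** over `ℚ`: no ramification index of a prime of `K`
is divisible by the residue characteristic. -/
def IsTame (K : Type*) [Field K] [NumberField K] : Prop :=
  ∀ p : ℕ, p.Prime → ∀ P : Ideal (𝓞 K), P.IsPrime → P.LiesOver (span {(p : ℤ)}) →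
    ¬ p ∣ P.ramificationIdx ℤ

section Restr

variable {n : ℕ} [NeZero n] {M : Type*} [Field M] [NumberField M]
  [hcyc : IsCyclotomicExtension {n} ℚ M] {K : Type*} [Field K] [NumberField K]
  [Algebra K M]

include hcyc in
/-- The subfields of `ℚ(ζ_n)`, `n` squarefree, are tamely ramified. -/
theorem isTame_of_squarefree (hn : Squarefree n) : IsTame K := by
  intro p hp P hP hPp hdvd
  have hM : IsGalois ℚ M := IsCyclotomicExtension.isGalois {n} ℚ M
  have hp' : Fact p.Prime := ⟨hp⟩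
  have hPb : P ≠ ⊥ := Ideal.ne_bot_of_liesOver_of_ne_bot
    (p := span {(p : ℤ)}) (by simpa using hp.ne_zero) P
  have hPm : P.IsMaximal := Ideal.IsPrime.isMaximal inferInstance hPb
  obtain ⟨𝔓, _, _⟩ := exists_maximal_ideal_liesOver_of_isIntegral P (S := 𝓞 M)
  have : 𝔓.LiesOver (span {(p : ℤ)}) := LiesOver.trans 𝔓 P _
  obtain ⟨k, m, hm, hnk⟩ := Nat.exists_eq_pow_mul_and_not_dvd (NeZero.ne n) p hp.ne_one
  have h1 : p ∣ 𝔓.ramificationIdx ℤ := by
    rw [ramificationIdx_tower P 𝔓]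
    exact hdvd.mul_right _
  rw [← ramificationIdxIn_eq_ramificationIdx (span {(p : ℤ)}) 𝔓 Gal(M/ℚ),
    ramificationIdxIn_eq' hnk hm] at h1
  have hk : k ≤ 1 := by
    by_contra hk
    push Not at hk
    have h2 : p * p ∣ n := by
      rw [hnk, ← sq]
      exact (pow_dvd_pow p hk).mul_right _
    exact hp.one_lt.ne' (Nat.isUnit_iff.mp (hn p h2))
  interval_cases k
  · rw [pow_zero, Nat.totient_one] at h1
    exact hp.one_lt.ne' (Nat.dvd_one.mp h1)
  · rw [pow_one, Nat.totient_prime hp] at h1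
    have h2 := Nat.le_of_dvd (Nat.sub_pos_of_lt hp.one_lt) h1
    have := hp.pos
    omega

/-- If the kernel acts faithfully on `K`, then `K` is wildly ramified at `p`. -/
theorem dvd_ramificationIdx [IsGalois ℚ K] {p n' : ℕ} (hp : p.Prime) (hn : n = p * n')
    (hpn : p ∣ n')
    (H : Subgroup Gal(M/ℚ)) (hH : H = (galMod n M (Dvd.intro_left _ hn.symm)).ker)
    (hinj : Function.Injective ((AlgEquiv.restrictNormalHom (F := ℚ) K).comp H.subtype)) :
    ∃ P : Ideal (𝓞 K), P.IsPrime ∧ P.LiesOver (span {(p : ℤ)}) ∧ p ∣ P.ramificationIdx ℤ := by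
  have hM : IsGalois ℚ M := IsCyclotomicExtension.isGalois {n} ℚ M
  have hp' : Fact p.Prime := ⟨hp⟩
  have hmax : (span {(p : ℤ)}).IsMaximal := Int.ideal_span_isMaximal_of_prime p
  obtain ⟨P, _, _⟩ := exists_maximal_ideal_liesOver_of_isIntegral (span {(p : ℤ)}) (S := 𝓞 K)
  obtain ⟨𝔓, _, _⟩ := exists_maximal_ideal_liesOver_of_isIntegral P (S := 𝓞 M)
  have : 𝔓.LiesOver (span {(p : ℤ)}) := LiesOver.trans 𝔓 P _
  refine ⟨P, inferInstance, inferInstance, ?_⟩
  obtain ⟨k, m, hm, hnk⟩ := Nat.exists_eq_pow_mul_and_not_dvd (NeZero.ne n) p hp.ne_one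
  have hmn' : m ∣ n' := by
    have h1 : m ∣ p * n' := by
      rw [← hn, hnk]
      exact dvd_mul_left _ _
    exact (Nat.Coprime.symm ((Nat.Prime.coprime_iff_not_dvd hp).mpr hm)).dvd_of_dvd_mul_left h1
  -- the kernel is contained in the inertia group
  have h2 : H ≤ 𝔓.inertia Gal(M/ℚ) := by
    rw [inertia_eq 𝔓 hnk hm, hH]
    intro σ hσ
    rw [MonoidHom.mem_ker, galMod_apply] at hσ ⊢
    have h3 : ZMod.unitsMap (Dvd.intro_left _ hnk.symm : m ∣ n) =
        (ZMod.unitsMap hmn').comp (ZMod.unitsMap (Dvd.intro_left _ hn.symm : n' ∣ n)) :=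
      (ZMod.unitsMap_comp hmn' (Dvd.intro_left _ hn.symm : n' ∣ n)).symm
    rw [h3, MonoidHom.comp_apply, hσ, map_one]
  have h4 : ∀ σ : H, AlgEquiv.restrictNormalHom (F := ℚ) K (σ : Gal(M/ℚ)) ∈
      P.inertia Gal(K/ℚ) := by
    intro σ x
    have h5 := h2 σ.2 (algebraMap (𝓞 K) (𝓞 M) x)
    have h6 : algebraMap (𝓞 K) (𝓞 M)
        (AlgEquiv.restrictNormalHom (F := ℚ) K (σ : Gal(M/ℚ)) • x - x) =
        (σ : Gal(M/ℚ)) • algebraMap (𝓞 K) (𝓞 M) x - algebraMap (𝓞 K) (𝓞 M) x := by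
      rw [map_sub]
      congr 1
      exact RingOfIntegers.ext (AlgEquiv.restrictNormal_commutes (σ : Gal(M/ℚ)) K (x : K))
    change AlgEquiv.restrictNormalHom (F := ℚ) K (σ : Gal(M/ℚ)) • x - x ∈ P
    rw [Ideal.mem_of_liesOver 𝔓 P, h6]
    exact h5
  have h7 : Nat.card H ∣ Nat.card (P.inertia Gal(K/ℚ)) := by
    refine Subgroup.card_dvd_of_injective
      (((AlgEquiv.restrictNormalHom (F := ℚ) K).comp H.subtype).codRestrict _ h4) ?_
    intro σ τ hστ
    exact hinj (congrArg Subtype.val hστ)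
  have hcard : Nat.card H = p := by rw [hH, card_ker_galMod_of_dvd hp hn hpn]
  rwa [hcard, Ideal.card_inertia_eq_ramificationIdxIn (span {(p : ℤ)}) P,
    ramificationIdxIn_eq_ramificationIdx (span {(p : ℤ)}) P Gal(K/ℚ)] at h7

end Restr

end Fermat.Agent.Cor.HS
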